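import Fermat.Agent.S43.RedIso.Hecke
import Fermat.Agent.S43.GA.EisQ
import Fermat.Agent.MR.Glue.Defs

/-!
# S43 / RedIso / Eigen : an eigenclass of `KV (E k M) p` lifts to an eigenclass of `KV (FN M) p`

`redIsoC` : (neat level `M`, `q ∤ M`, `p ≠ q`)  if the system of eigenvalues `a` does not occur in `V_p(F(M))`
(`eigenKV M p S a = ⊥`) then every Kummer function `v` of `E k M` with `T̄_l v = v ^ (a l) * h ^ p` for all good `l` is a `p`-th power.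
-/

set_option autoImplicit false
set_option linter.style.haveILetI false
set_option linter.unusedSectionVars false

noncomputable section

namespace Fermat.Agent.S43.RedIso

open AlgebraicCurve ModularCurve Fermat.Agent.S24 Fermat.Agent.GAL Fermat.Agent.GAL.Hecke
  Fermat.Agent.GAL.Igusa Fermat.Agent.GAL.RED Fermat.Agent.GAL.Gauss Fermat.Agent.DR
  Fermat.Agent.MR Fermat.Agent.MR.Eis Fermat.Agent.MR.Glue Fermat.Agent.S43.GA

theorem alg_quot {F : Type*} [Field F] (v h1 h2 t : F) (a : ℤ) (p : ℕ) (hv0 : v ≠ 0)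
    (hh1 : h1 ≠ 0) :
    (v ^ a * h2 ^ p * t ^ p) / ((v * h1 ^ p) ^ a) = (h2 * t * (h1 ^ a)⁻¹) ^ p := by
  rw [mul_zpow, mul_pow, mul_pow, inv_pow]
  have e3 : (h1 ^ p) ^ a = (h1 ^ a) ^ p := by
    rw [← zpow_natCast h1 p, ← zpow_mul, ← zpow_natCast (h1 ^ a) p, ← zpow_mul, mul_comm]
  rw [e3]
  have hva : v ^ a ≠ 0 := zpow_ne_zero _ hv0
  have hha : (h1 ^ a) ^ p ≠ 0 := pow_ne_zero _ (zpow_ne_zero _ hh1)
  field_simp

theorem heckeT_eq_of_quot (M : ℕ) [NeZero M] (p : ℕ) (hp0 : p ≠ 0) (l : ℕ) [NeZero l] (a : ℤ)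
    (u : kummerUnits Kbar (FN M) p) (w : FN M)
    (hw : heckeNorm Kbar M l ((u : (FN M)ˣ) : FN M) / ((u : (FN M)ˣ) : FN M) ^ a = w ^ p) :
    heckeT Kbar M l p (KV.mk u) = a • KV.mk u := by
  have hw0 : w ≠ 0 := by
    rintro rfl
    rw [zero_pow hp0, div_eq_zero_iff] at hw
    rcases hw with hw | hw
    · exact (Units.map (heckeNorm Kbar M l) (u : (FN M)ˣ)).ne_zero hw
    · exact zpow_ne_zero _ (Units.ne_zero _) hw
  rw [heckeT_mk (heckeNormPreserves M l p) u, ← KV_mk_zpow, KV.mk_eq_mk_iff]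
  refine ⟨Units.mk0 w hw0, ?_⟩
  ext
  simp only [Units.val_mul, Units.val_pow_eq_pow_val, Units.val_mk0, Subgroup.coe_zpow,
    Units.val_zpow_eq_zpow_val, Units.coe_map]
  rw [← hw, div_mul_cancel₀ _ (zpow_ne_zero _ (Units.ne_zero _))]

theorem dvd_ord_quot (M : ℕ) [NeZero M] (p : ℕ) (l : ℕ) [NeZero l] (a : ℤ)
    (u : kummerUnits Kbar (FN M) p) (P : Place Kbar (FN M)) :
    (p : ℤ) ∣ P.ord (heckeNorm Kbar M l ((u : (FN M)ˣ) : FN M) / ((u : (FN M)ˣ) : FN M) ^ a) := by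
  have hNu : (Units.map (heckeNorm Kbar M l) (u : (FN M)ˣ)) ∈ kummerUnits Kbar (FN M) p :=
      heckeNormPreserves M l p u u.2
  have hN0 : heckeNorm Kbar M l ((u : (FN M)ˣ) : FN M) ≠ 0 :=
        (Units.map (heckeNorm Kbar M l) (u : (FN M)ˣ)).ne_zero
  rw [RED.ord_div P hN0 (zpow_ne_zero _ (Units.ne_zero _)), P.ord_zpow]
  exact dvd_sub (hNu P) (Dvd.dvd.mul_left (u.2 P) _)

theorem red_quot (A : ValuationSubring Kbar) (M : ℕ) [NeZero M]
    (hM : ((M : ℕ) : IsLocalRing.ResidueField ↥A) ≠ 0) (p : ℕ) (l : ℕ) [NeZero l] (hl : l.Prime)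
    (hlM : ¬ l ∣ M) (hMl : ((M * l : ℕ) : IsLocalRing.ResidueField ↥A) ≠ 0) (a : ℤ)
    (u : FN M) (v h1 h2 : E (IsLocalRing.ResidueField ↥A) M) (hv0 : v ≠ 0) (hh1 : h1 ≠ 0)
    (hu : (Conc.RM A M hM).red u = v * h1 ^ p)
    (hTv : TBar (IsLocalRing.ResidueField ↥A) M l v = v ^ a * h2 ^ p) :
    (Conc.RM A M hM).red (heckeNorm Kbar M l u / u ^ a)
        = (h2 * TBar (IsLocalRing.ResidueField ↥A) M l h1 * (h1 ^ a)⁻¹) ^ p := by
  have hune : (Conc.RM A M hM).red u ≠ 0 := by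
    rw [hu]
    exact mul_ne_zero hv0 (pow_ne_zero _ hh1)
  obtain ⟨hN1, hN2⟩ := RM_red_heckeNorm A M hM l hl hlM hMl _
    ((Conc.RM A M hM).mem_of_red_ne_zero hune)
  have hua : (Conc.RM A M hM).red (u ^ a) ≠ 0 := by
    rw [(Conc.RM A M hM).red_zpow hune]
    exact zpow_ne_zero _ hune
  rw [(Conc.RM A M hM).red_div hN1 hua, hN2, (Conc.RM A M hM).red_zpow hune, hu, map_mul, map_pow,
    hTv]
  exact alg_quot v h1 h2 _ a p hv0 hh1

theorem eq_pow_of_red {K F k Fb : Type*} [Field K] [Field F] [Algebra K F] [Field k] [Field Fb]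
    [Algebra k Fb] (R : RedData K F k Fb) (p : ℕ) (u y : F) (v h1 : Fb) (hh1 : h1 ≠ 0)
    (hu : R.red u = v * h1 ^ p) (hy : u = y ^ p) : v = (R.red y * h1⁻¹) ^ p := by
  rw [mul_pow, ← R.red_pow, ← hy, hu, inv_pow, mul_assoc, mul_inv_cancel₀ (pow_ne_zero _ hh1),
    mul_one]

/-- abstract form: `hL` = lifting, `hI` = injectivity of the reduction of level `M`. -/
theorem redIso_of (A : ValuationSubring Kbar) (M : ℕ) [NeZero M]
    (hM : ((M : ℕ) : IsLocalRing.ResidueField ↥A) ≠ 0) (p : ℕ) (hp0 : p ≠ 0)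
    (hL : Lifts (Conc.RM A M hM) p)
    (hI : ∀ f : FN M, (∀ P : Place Kbar (FN M), (p : ℤ) ∣ P.ord f) →
      ∀ h : E (IsLocalRing.ResidueField ↥A) M, h ≠ 0 → (Conc.RM A M hM).red f = h ^ p →
        ∃ w : FN M, f = w ^ p)
    (S : Finset ℕ) (a : ℕ → ℤ) (h0 : eigenKV M p S a = ⊥)
    (hS : ∀ l : ℕ, l.Prime → l ∉ S → ((l : ℕ) : IsLocalRing.ResidueField ↥A) ≠ 0)
    (v : E (IsLocalRing.ResidueField ↥A) M) (hv0 : v ≠ 0)
    (hv : ∀ P : Place (IsLocalRing.ResidueField ↥A) (E (IsLocalRing.ResidueField ↥A) M),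
      (p : ℤ) ∣ P.ord v)
    (hT : ∀ (l : ℕ) [NeZero l], l.Prime → ¬ l ∣ M → l ∉ S →
      ∃ h : E (IsLocalRing.ResidueField ↥A) M, h ≠ 0 ∧
        TBar (IsLocalRing.ResidueField ↥A) M l v = v ^ (a l) * h ^ p) :
    ∃ w : E (IsLocalRing.ResidueField ↥A) M, v = w ^ p := by
  obtain ⟨u, h1, hh1, hu⟩ := hL v hv0 hv
  have hmem : KV.mk u ∈ eigenKV M p S a := by
    rw [mem_eigenKV]
    intro l _ hl hlM hlS
    obtain ⟨h2, hh2, hTv⟩ := hT l hl hlM hlS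
    have hMl : ((M * l : ℕ) : IsLocalRing.ResidueField ↥A) ≠ 0 := by
      rw [Nat.cast_mul]
      exact mul_ne_zero hM (hS l hl hlS)
    have hTh1 : TBar (IsLocalRing.ResidueField ↥A) M l h1 ≠ 0 := TBar_ne_zero _ M l hh1
    obtain ⟨w, hw⟩ := hI _ (dvd_ord_quot M p l (a l) u) _
      (mul_ne_zero (mul_ne_zero hh2 hTh1) (inv_ne_zero (zpow_ne_zero _ hh1)))
      (red_quot A M hM p l hl hlM hMl (a l) _ v h1 h2 hv0 hh1 hu hTv)
    exact heckeT_eq_of_quot M p hp0 l (a l) u w hw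
  rw [h0, AddSubgroup.mem_bot, KV.mk_eq_zero_iff] at hmem
  obtain ⟨y, hy⟩ := hmem
  have hy' : ((u : (FN M)ˣ) : FN M) = (y : FN M) ^ p := by
    rw [← hy, Units.val_pow_eq_pow_val]
  exact ⟨_, eq_pow_of_red (Conc.RM A M hM) p _ _ v h1 hh1 hu hy'⟩

/-- **`RedIsoC`** (shape asked by GA/Core), neat level. -/
theorem redIsoC (A : ValuationSubring Kbar) (M q : ℕ) [NeZero M] [NeZero q] (hq : q.Prime)
    (hqM : ¬ q ∣ M) (hA : A.LiesOverPrime q) (hneat : 4 ∣ M ∨ 9 ∣ M) (p : ℕ) (hp : p.Prime)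
    (hpq : p ≠ q) (S : Finset ℕ) (hqS : q ∈ S) (a : ℕ → ℤ) (h0 : eigenKV M p S a = ⊥)
    (v : E (IsLocalRing.ResidueField ↥A) M) (hv0 : v ≠ 0) (hv : MDiv A M p v)
    (hT : ∀ (l : ℕ) [NeZero l], l.Prime → ¬ l ∣ M * q → l ∉ S →
      ∃ h : E (IsLocalRing.ResidueField ↥A) M, h ≠ 0 ∧
        TBar (IsLocalRing.ResidueField ↥A) M l v = v ^ (a l) * h ^ p) :
    ∃ w : E (IsLocalRing.ResidueField ↥A) M, v = w ^ p := by
  haveI := Hecke.charP_residueField A hq hA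
  haveI := Igusa.isAlgClosed_residueField A
  have hM := Conc.natCast_M_ne_zero A M q hq hqM hA
  haveI := Igusa.isFF_E (IsLocalRing.ResidueField ↥A) M hM
  haveI : Lib.RR.IsFF Kbar (FN M) := Fermat.Agent.GAL.Desc.isFF_FF_Kbar M
  have hg : Conc.GoodRed A M := Conc.goodRed_of_neat A M hM Igusa.cuspUpper Igusa.cuspLower hneat
  have hL : Lifts (Conc.RM A M hM) p := by
    have := lifts_RM_neat A q hq hA M hM hneat p hp hpq 1
    rwa [pow_one] at this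
  have hne : ∀ l : ℕ, l.Prime → l ∉ S → l ≠ q := by
    rintro l - hlS rfl
    exact hlS hqS
  have hcast : ∀ l : ℕ, l.Prime → l ≠ q → ((l : ℕ) : IsLocalRing.ResidueField ↥A) ≠ 0 := by
    intro l hl hlq h
    rw [CharP.cast_eq_zero_iff (IsLocalRing.ResidueField ↥A) q] at h
    exact hlq ((Nat.prime_dvd_prime_iff_eq hq hl).mp h).symm
  refine redIso_of A M hM p hp.ne_zero hL ?_ S a h0 (fun l hl hlS => hcast l hl (hne l hl hlS))
    v hv0 hv ?_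
  · intro f hf h hh hres
    exact RED.inj (Conc.RM A M hM) (Conc.RM_isCartesian A M hM) hg p (hcast p hp hpq) f hf h hh hres
  · intro l _ hl hlM hlS
    refine hT l hl ?_ hlS
    intro hd
    rcases (Nat.Prime.dvd_mul hl).mp hd with h | h
    · exact hlM h
    · exact hne l hl hlS ((Nat.prime_dvd_prime_iff_eq hl hq).mp h)

end Fermat.Agent.S43.RedIso
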