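import Fermat.Agent.GAL.RED.Main
import Fermat.Agent.S27.CharP
import Fermat.Agent.S32.KVPic

/-!
# S43 / RedIso / Abs : good reduction is BIJECTIVE on Kummer classes (abstract form)

`R : RedData K F k Fb` cartesian, equal genera, `K` algebraically closed of characteristic `0`, `k = 𝔽̄_q`, `m = ℓ ^ e`, `ℓ ≠ q`.

* `card_KV_charZero`, `card_KV_charP_le` : `#KV K F m = m ^ (2 g)`, `#KV k Fb m ≤ m ^ (2 g)`  (S27 in both characteristics);
* `lift_abs` : every Kummer function `v` of `Fb` (all orders divisible by `m`) is, up to an `m`-th power, the reduction of a Kummer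
  function of `F`.
-/

set_option autoImplicit false

namespace Fermat.Agent.S43.RedIso

open AlgebraicCurve Fermat.Agent.GAL Fermat.Agent.GAL.RED Fermat.Agent.Lib.RR

section card

variable {K F : Type*} [Field K] [Field F] [Algebra K F]

theorem pic0_mk_eq_zero_iff (D : Divisor.degZero (K := K) (F := F)) :
    Pic0.mk D = 0 ↔ Divisor.IsPrincipal (D : Divisor K F) := by
  unfold Pic0.mk
  rw [QuotientAddGroup.eq_zero_iff, AddSubgroup.mem_addSubgroupOf]
  rfl

variable [IsFF K F] [IsAlgClosed K]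

theorem exists_inj_KV_torsion (m : ℕ) (hm : m ≠ 0) :
    ∃ ψ : KV K F m → Pic0.torsion K F m, Function.Injective ψ := by
  obtain ⟨φ, hinj, htor, -⟩ := S32.exists_kvToPic (K := K) (F := F) m hm
  refine ⟨fun x => ⟨φ x, Pic0.mem_torsion.mpr (htor x)⟩, ?_⟩
  intro x y hxy
  exact hinj (congrArg Subtype.val hxy)

/-- every `m`-torsion class is `[div(f) / m]`. -/
theorem exists_rep_torsion (m : ℕ) (x : Pic0.torsion K F m) :
    ∃ (D : Divisor.degZero (K := K) (F := F)) (f : F), Pic0.mk D = x.1 ∧ f ≠ 0 ∧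
      ∀ v : Place K F, (m : ℤ) * (D : Divisor K F) v = v.ord f := by
  obtain ⟨D, hD⟩ := Pic0.mk_surjective x.1
  have h1 : (m : ℤ) • x.1 = 0 := Pic0.mem_torsion.mp x.2
  have h2 : Pic0.mk ((m : ℤ) • D) = 0 := by
    rw [← h1, ← hD]
    rfl
  rw [pic0_mk_eq_zero_iff] at h2
  obtain ⟨f, hf, hfD⟩ := h2
  refine ⟨D, f, hD, hf, fun v => ?_⟩
  rw [← hfD v]
  simp

theorem exists_inj_torsion_KV (m : ℕ) (hm : m ≠ 0) :
    ∃ j : Pic0.torsion K F m → KV K F m, Function.Injective j := by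
  choose D f hD hf hfD using exists_rep_torsion (K := K) (F := F) m
  have hmem : ∀ x, Units.mk0 (f x) (hf x) ∈ kummerUnits K F m := by
    intro x P
    rw [Units.val_mk0, ← hfD x P]
    exact dvd_mul_right _ _
  refine ⟨fun x => KV.mk ⟨Units.mk0 (f x) (hf x), hmem x⟩, ?_⟩
  intro x x' hxx
  rw [KV.mk_eq_mk_iff] at hxx
  obtain ⟨y, hy⟩ := hxx
  have hy' : (y : F) ^ m * f x' = f x := by
    have := congrArg (fun z : Fˣ => (z : F)) hy
    simpa using this
  apply Subtype.ext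
  rw [← hD x, ← hD x', ← sub_eq_zero]
  have h3 : Pic0.mk (D x) - Pic0.mk (D x') = Pic0.mk (D x - D x') := rfl
  rw [h3, pic0_mk_eq_zero_iff]
  refine ⟨(y : F), Units.ne_zero y, fun v => ?_⟩
  have h4 := hfD x v
  have h5 := hfD x' v
  rw [← hy', v.ord_mul (pow_ne_zero _ (Units.ne_zero y)) (hf x'), RED.ord_pow, ← h5] at h4
  have hmZ : (m : ℤ) ≠ 0 := by exact_mod_cast hm
  have h6 : (m : ℤ) * ((D x : Divisor K F) v - (D x' : Divisor K F) v) = (m : ℤ) * v.ord (y : F) := by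
    linarith
  have h7 := mul_left_cancel₀ hmZ h6
  rw [← h7]
  simp

end card

/-- `#KV = m ^ (2 g)` in characteristic `0`. -/
theorem card_KV_charZero (K F : Type*) [Field K] [Field F] [Algebra K F] [IsFF K F] [IsAlgClosed K]
    [CharZero K] (ℓ : ℕ) (hℓ : ℓ.Prime) (e : ℕ) :
    Finite (KV K F (ℓ ^ e)) ∧ Nat.card (KV K F (ℓ ^ e)) = ℓ ^ (2 * genusFF K F * e) := by
  have hm : ℓ ^ e ≠ 0 := pow_ne_zero _ hℓ.ne_zero
  have hc := S27.card_torsion_charZero K F ℓ hℓ e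
  have hfin : Finite (Pic0.torsion K F (ℓ ^ e)) := by
    apply Nat.finite_of_card_ne_zero
    rw [hc]
    exact pow_ne_zero _ hℓ.ne_zero
  obtain ⟨ψ, hψ⟩ := exists_inj_KV_torsion (K := K) (F := F) (ℓ ^ e) hm
  obtain ⟨j, hj⟩ := exists_inj_torsion_KV (K := K) (F := F) (ℓ ^ e) hm
  have hfin2 : Finite (KV K F (ℓ ^ e)) := Finite.of_injective ψ hψ
  refine ⟨hfin2, ?_⟩
  rw [← hc]
  exact le_antisymm (Nat.card_le_card_of_injective ψ hψ) (Nat.card_le_card_of_injective j hj)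

/-- `#KV ≤ m ^ (2 g)` over `𝔽̄_q`. -/
theorem card_KV_charP_le (q : ℕ) (hq : q.Prime) (k Fb : Type*) [Field k] [Field Fb] [Algebra k Fb]
    [IsFF k Fb] [IsAlgClosed k] [CharP k q] (hκ : ∀ a : k, ∃ n : ℕ, 0 < n ∧ a ^ (q ^ n) = a)
    (ℓ : ℕ) (hℓ : ℓ.Prime) (hne : ℓ ≠ q) (e : ℕ) :
    Finite (KV k Fb (ℓ ^ e)) ∧ Nat.card (KV k Fb (ℓ ^ e)) ≤ ℓ ^ (2 * genusFF k Fb * e) := by
  have hm : ℓ ^ e ≠ 0 := pow_ne_zero _ hℓ.ne_zero
  have hc := S27.card_torsion_charP q hq k Fb hκ ℓ hℓ hne e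
  have hfin : Finite (Pic0.torsion k Fb (ℓ ^ e)) := by
    apply Nat.finite_of_card_ne_zero
    rw [hc]
    exact pow_ne_zero _ hℓ.ne_zero
  obtain ⟨ψ, hψ⟩ := exists_inj_KV_torsion (K := k) (F := Fb) (ℓ ^ e) hm
  refine ⟨Finite.of_injective ψ hψ, ?_⟩
  rw [← hc]
  exact Nat.card_le_card_of_injective ψ hψ

section lift

variable {K F k Fb : Type*} [Field K] [Field F] [Algebra K F] [Field k] [Field Fb] [Algebra k Fb]
variable [IsFF K F] [IsAlgClosed K] [IsFF k Fb] [IsAlgClosed k]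

/-- the reduction of a Kummer function which is a unit of `O` is a Kummer function. -/
theorem dvd_ord_red (R : RedData K F k Fb) (hC : R.IsCartesian) (hg : genusFF K F = genusFF k Fb)
    (m : ℕ) (u : F) (hu : R.red u ≠ 0) (hdiv : ∀ P : Place K F, (m : ℤ) ∣ P.ord u)
    (Q : Place k Fb) : (m : ℤ) ∣ Q.ord (R.red u) := by
  classical
  obtain ⟨r, hr⟩ := exists_isRedMap R hC hg
  have h1 := hr.map_divOf u hu
  have h2 : Q.ord (R.red u) = (Finsupp.mapDomain r (divOf (K := K) u)) Q := by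
    rw [h1, divOf_apply]
  rw [h2, Finsupp.mapDomain, Finsupp.sum, Finsupp.finset_sum_apply]
  refine Finset.dvd_sum fun P _ => ?_
  rw [Finsupp.single_apply]
  split_ifs
  · rw [divOf_apply]
    exact hdiv P
  · exact dvd_zero _

/-- every class has a representative which is a unit of `O`. -/
theorem exists_unit_rep (R : RedData K F k Fb) (hC : R.IsCartesian) (m : ℕ) (hm : m ≠ 0)
    (x : KV K F m) : ∃ u : kummerUnits K F m, KV.mk u = x ∧ R.red ((u : Fˣ) : F) ≠ 0 := by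
  obtain ⟨u, rfl⟩ := KV.mk_surjective x
  obtain ⟨c, hc0, hc⟩ := hC.exists_scale (Units.ne_zero (u : Fˣ))
  obtain ⟨d, hd⟩ := IsAlgClosed.exists_pow_nat_eq c (Nat.pos_of_ne_zero hm)
  have hd0 : d ≠ 0 := by
    rintro rfl
    rw [zero_pow hm] at hd
    exact hc0 hd.symm
  have hdF : algebraMap K F d ≠ 0 := (map_ne_zero _).mpr hd0
  let y : Fˣ := Units.mk0 _ hdF
  have hy : y ^ m ∈ kummerUnits K F m := pow_mem_kummerUnits m y
  refine ⟨⟨y ^ m, hy⟩ * u, ?_, ?_⟩
  · rw [KV.mk_mul]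
    have : KV.mk (⟨y ^ m, hy⟩ : kummerUnits K F m) = 0 := by
      rw [KV.mk_eq_zero_iff]
      exact ⟨y, rfl⟩
    rw [this, zero_add]
  · have e1 : (((⟨y ^ m, hy⟩ * u : kummerUnits K F m) : Fˣ) : F)
        = algebraMap K F c * ((u : Fˣ) : F) := by
      simp only [Subgroup.coe_mul, Units.val_mul, Units.val_pow_eq_pow_val]
      rw [← hd, map_pow]
      rfl
    rw [e1]
    exact hc

/-- **Lifting of Kummer classes** (surjectivity of the good reduction map on `ℓ^e`-torsion). -/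
theorem lift_abs [CharZero K] (q : ℕ) (hq : q.Prime) [CharP k q]
    (hκ : ∀ a : k, ∃ n : ℕ, 0 < n ∧ a ^ (q ^ n) = a)
    (R : RedData K F k Fb) (hC : R.IsCartesian) (hg : genusFF K F = genusFF k Fb)
    (ℓ : ℕ) (hℓ : ℓ.Prime) (hne : ℓ ≠ q) (e : ℕ) (v : Fb) (hv0 : v ≠ 0)
    (hv : ∀ P : Place k Fb, ((ℓ ^ e : ℕ) : ℤ) ∣ P.ord v) :
    ∃ u : kummerUnits K F (ℓ ^ e), ∃ h : Fb, h ≠ 0 ∧ R.red ((u : Fˣ) : F) = v * h ^ (ℓ ^ e) := by
  classical
  set m : ℕ := ℓ ^ e with hm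
  have hm0 : m ≠ 0 := pow_ne_zero _ hℓ.ne_zero
  have hmk : (m : k) ≠ 0 := by
    rw [hm, Nat.cast_pow]
    apply pow_ne_zero
    intro h0
    rw [CharP.cast_eq_zero_iff k q] at h0
    exact hne ((Nat.prime_dvd_prime_iff_eq hq hℓ).mp h0).symm
  choose rep hrep hrepu using exists_unit_rep R hC m hm0
  have hmem : ∀ x, Units.mk0 _ (hrepu x) ∈ kummerUnits k Fb m := by
    intro x Q
    rw [Units.val_mk0]
    exact dvd_ord_red R hC hg m _ (hrepu x) (rep x).2 Q
  let g : KV K F m → KV k Fb m := fun x => KV.mk ⟨Units.mk0 _ (hrepu x), hmem x⟩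
  have hginj : Function.Injective g := by
    intro x x' hxx
    rw [KV.mk_eq_mk_iff] at hxx
    obtain ⟨y, hy⟩ := hxx
    have hy' : (y : Fb) ^ m * R.red (((rep x' : kummerUnits K F m) : Fˣ) : F)
        = R.red (((rep x : kummerUnits K F m) : Fˣ) : F) := by
      have := congrArg (fun z : Fbˣ => (z : Fb)) hy
      simpa using this
    have h1 : R.red ((((rep x : kummerUnits K F m) : Fˣ) : F) /
        (((rep x' : kummerUnits K F m) : Fˣ) : F)) = (y : Fb) ^ m := by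
      rw [R.red_div (R.mem_of_red_ne_zero (hrepu x)) (hrepu x'), ← hy',
        mul_div_cancel_right₀ _ (hrepu x')]
    obtain ⟨w, hw⟩ := inj R hC hg m hmk _ (by
      intro P
      rw [RED.ord_div P (Units.ne_zero _) (Units.ne_zero _)]
      exact dvd_sub ((rep x).2 P) ((rep x').2 P)) (y : Fb) (Units.ne_zero y) h1
    have hw0 : w ≠ 0 := by
      rintro rfl
      rw [zero_pow hm0, div_eq_zero_iff] at hw
      rcases hw with hw | hw
      · exact Units.ne_zero _ hw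
      · exact Units.ne_zero _ hw
    rw [← hrep x, ← hrep x', KV.mk_eq_mk_iff]
    refine ⟨Units.mk0 w hw0, ?_⟩
    ext
    simp only [Units.val_mul, Units.val_pow_eq_pow_val, Units.val_mk0]
    rw [← hw, div_mul_cancel₀ _ (Units.ne_zero _)]
  obtain ⟨hf1, hc1⟩ := card_KV_charZero K F ℓ hℓ e
  obtain ⟨hf2, hc2⟩ := card_KV_charP_le q hq k Fb hκ ℓ hℓ hne e
  have hle : Nat.card (KV k Fb m) ≤ Nat.card (KV K F m) := by
    rw [hc1, hg]
    exact hc2
  have hsurj : Function.Surjective g :=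
    (Function.Injective.bijective_of_nat_card_le hginj hle).2
  obtain ⟨x, hx⟩ := hsurj (KV.mk ⟨Units.mk0 v hv0, fun P => by rw [Units.val_mk0]; exact hv P⟩)
  rw [KV.mk_eq_mk_iff] at hx
  obtain ⟨y, hy⟩ := hx
  have hy' : (y : Fb) ^ m * v = R.red (((rep x : kummerUnits K F m) : Fˣ) : F) := by
    have := congrArg (fun z : Fbˣ => (z : Fb)) hy
    simpa using this
  exact ⟨rep x, (y : Fb), Units.ne_zero y, by rw [← hy', mul_comm]⟩

end lift

end Fermat.Agent.S43.RedIso
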