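import Fermat.Agent.S43.RedIso.Descent
import Fermat.Agent.DR.Conc.Level
import Fermat.Agent.DR.Conc.Basis
import Fermat.Agent.GAL.Igusa.Final
import Fermat.Agent.MR.Eis.RedHecke

/-!
# S43 / RedIso / Conc : lifting of Kummer classes from `E k M` to `FN M`  (good reduction at `q ∤ M`)

* `lifts_gauss_neat`  : neat level (`4 ∣ M ∨ 9 ∣ M`), any `ℓ ≠ q`;
* `lifts_gauss_level` : any level `M` prime to `q ≠ 2`, `ℓ ≥ 5`;
* `lifts_RM`          : the same for `DR.Conc.RM A M hM` on `FN M`.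
-/

set_option autoImplicit false
set_option linter.style.haveILetI false
set_option linter.unusedSectionVars false

noncomputable section

namespace Fermat.Agent.S43.RedIso

open AlgebraicCurve ModularCurve Fermat.Agent.S24 Fermat.Agent.GAL Fermat.Agent.GAL.RED
  Fermat.Agent.GAL.Gauss Fermat.Agent.GAL.Igusa Fermat.Agent.GAL.Hecke Fermat.Agent.DR
  Fermat.Agent.Lib.RR

theorem psi_mul_four (n : ℕ) (hn : n ≠ 0) :
    dedekindPsi (n * 4) = 4 * dedekindPsi n ∨ dedekindPsi (n * 4) = 6 * dedekindPsi n := by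
  obtain ⟨a, b, hb, rfl⟩ := Nat.exists_eq_two_pow_mul_odd hn
  have hcop : ∀ x : ℕ, Nat.Coprime (2 ^ x) b :=
    fun x => Nat.Coprime.pow_left x (Nat.coprime_two_left.mpr hb)
  have e1 : 2 ^ a * b * 4 = 2 ^ (a + 2) * b := by ring
  rw [e1, Lib.Gamma0Cosets.dedekindPsi_mul (hcop _), Lib.Gamma0Cosets.dedekindPsi_mul (hcop _)]
  cases a with
  | zero =>
    right
    rw [show (0 + 2 : ℕ) = 1 + 1 from rfl, Lib.Gamma0Cosets.dedekindPsi_prime_pow Nat.prime_two, pow_zero,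
      dedekindPsi_one]
    norm_num
  | succ a =>
    left
    rw [show (a + 1 + 2 : ℕ) = (a + 2) + 1 from rfl, Lib.Gamma0Cosets.dedekindPsi_prime_pow Nat.prime_two,
      Lib.Gamma0Cosets.dedekindPsi_prime_pow Nat.prime_two]
    ring

variable (A : ValuationSubring Kbar) (q : ℕ) (hq : q.Prime) (hA : A.LiesOverPrime q)

include hq hA in
/-- neat level. -/
theorem lifts_gauss_neat (M : ℕ) [NeZero M] (hM : ((M : ℕ) : IsLocalRing.ResidueField ↥A) ≠ 0)
    (hneat : 4 ∣ M ∨ 9 ∣ M) (ℓ : ℕ) (hℓ : ℓ.Prime) (hne : ℓ ≠ q) (e : ℕ) :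
    Lifts (gaussRedData A M hM) (ℓ ^ e) := by
  haveI := Hecke.charP_residueField A hq hA
  haveI := Igusa.isAlgClosed_residueField A
  haveI := Igusa.isFF_E (IsLocalRing.ResidueField ↥A) M hM
  have hMK : ((M : ℕ) : Kbar) ≠ 0 := Nat.cast_ne_zero.mpr (NeZero.ne M)
  haveI := Igusa.isFF_E Kbar M hMK
  haveI : Algebra.IsAlgebraic ℚ Kbar := AlgebraicClosure.isAlgebraic ℚ
  intro v hv0 hv
  exact lift_abs q hq (S27.exists_pow_eq_self_residueField A q hq) (gaussRedData A M hM)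
    (gaussRedData_isCartesian hM) (Igusa.genusFF_eq' A M hM hneat).symm ℓ hℓ hne e v hv0 hv

theorem mem_gauss_O_iff (M : ℕ) [NeZero M] (hM : ((M : ℕ) : IsLocalRing.ResidueField ↥A) ≠ 0)
    (x : E Kbar M) : x ∈ (gaussRedData A M hM).O ↔ (x : LaurentSeries Kbar) ∈ gRing A := Iff.rfl

theorem coe_gauss_red (M : ℕ) [NeZero M] (hM : ((M : ℕ) : IsLocalRing.ResidueField ↥A) ≠ 0)
    (x : E Kbar M) (hx : (x : LaurentSeries Kbar) ∈ gRing A) :
    (((gaussRedData A M hM).red x : E (IsLocalRing.ResidueField ↥A) M) :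
      LaurentSeries (IsLocalRing.ResidueField ↥A)) = gRes A ⟨_, hx⟩ :=
  Conc.coe_gaussRedData'_red A M hM _ rfl x hx

set_option synthInstance.maxHeartbeats 400000 in
set_option maxHeartbeats 1600000 in
include hq hA in
/-- any level prime to `q`, `q` odd, `ℓ ≥ 5`. -/
theorem lifts_gauss_level (hq2 : q ≠ 2) (M : ℕ) [NeZero M]
    (hM : ((M : ℕ) : IsLocalRing.ResidueField ↥A) ≠ 0)
    (ℓ : ℕ) (hℓ : ℓ.Prime) (h5 : 5 ≤ ℓ) (hne : ℓ ≠ q) (e : ℕ) :
    Lifts (gaussRedData A M hM) (ℓ ^ e) := by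
  haveI := Hecke.charP_residueField A hq hA
  have h4 : ((4 : ℕ) : IsLocalRing.ResidueField ↥A) ≠ 0 := by
    rw [Ne, CharP.cast_eq_zero_iff (IsLocalRing.ResidueField ↥A) q]
    intro hd
    have h2 : q ∣ 2 := hq.dvd_of_dvd_pow (show q ∣ 2 ^ 2 by norm_num; exact hd)
    exact hq2 ((Nat.prime_dvd_prime_iff_eq hq Nat.prime_two).mp h2)
  have hM4 : ((M * 4 : ℕ) : IsLocalRing.ResidueField ↥A) ≠ 0 := by
    rw [Nat.cast_mul]
    exact mul_ne_zero hM h4
  have hMK4 : ((M * 4 : ℕ) : Kbar) ≠ 0 := Nat.cast_ne_zero.mpr (NeZero.ne (M * 4))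
  have hL := lifts_gauss_neat A q hq hA (M * 4) hM4 (Or.inl (dvd_mul_left 4 M)) ℓ hℓ hne e
  letI := towerAlgebra Kbar (dvd_mul_right M 4)
  letI := towerAlgebra (IsLocalRing.ResidueField ↥A) (dvd_mul_right M 4)
  obtain ⟨a1, -, a3, a4, a5⟩ := tower_spec Kbar (dvd_mul_right M 4) hMK4
  obtain ⟨b1, -, b3, -, b5⟩ := tower_spec (IsLocalRing.ResidueField ↥A) (dvd_mul_right M 4) hM4
  have hpos := DegreeAlpha.dedekindPsi_pos M
  have hdeg : Module.finrank (E (IsLocalRing.ResidueField ↥A) M) (E (IsLocalRing.ResidueField ↥A) (M * 4))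
      = Module.finrank (E Kbar M) (E Kbar (M * 4)) :=
    Nat.eq_of_mul_eq_mul_right hpos (b5.trans a5.symm)
  have hcop : Nat.Coprime (ℓ ^ e)
      (Module.finrank (E (IsLocalRing.ResidueField ↥A) M) (E (IsLocalRing.ResidueField ↥A) (M * 4))) := by
    apply Nat.Coprime.pow_left
    rw [Nat.Prime.coprime_iff_not_dvd hℓ]
    intro hd
    rcases psi_mul_four M (NeZero.ne M) with h | h
    · rw [h] at b5
      have := Nat.eq_of_mul_eq_mul_right hpos b5
      rw [this] at hd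
      have := Nat.le_of_dvd (by norm_num) hd
      omega
    · rw [h] at b5
      have := Nat.eq_of_mul_eq_mul_right hpos b5
      rw [this] at hd
      have h6 := Nat.le_of_dvd (by norm_num) hd
      interval_cases ℓ
      · omega
      · exact absurd hℓ (by norm_num)
  refine lifts_descent (gaussRedData A M hM) (gaussRedData A (M * 4) hM4) ?_ ?_ hdeg (ℓ ^ e) hcop hL
  · intro y hy
    rw [mem_gauss_O_iff] at hy ⊢
    rw [show ((algebraMap (E Kbar M) (E Kbar (M * 4)) y : E Kbar (M * 4)) : LaurentSeries Kbar)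
      = (y : LaurentSeries Kbar) from MR.Eis.coe_towerAlgebraMap Kbar (dvd_mul_right M 4) y]
    exact hy
  · intro y hy
    rw [mem_gauss_O_iff] at hy
    have e1 : ((algebraMap (E Kbar M) (E Kbar (M * 4)) y : E Kbar (M * 4)) : LaurentSeries Kbar)
      = (y : LaurentSeries Kbar) := MR.Eis.coe_towerAlgebraMap Kbar (dvd_mul_right M 4) y
    have hy' : ((algebraMap (E Kbar M) (E Kbar (M * 4)) y : E Kbar (M * 4)) : LaurentSeries Kbar)
        ∈ gRing A := by rw [e1]; exact hy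
    apply Subtype.ext
    rw [coe_gauss_red A (M * 4) hM4 _ hy']
    rw [show ((algebraMap (E (IsLocalRing.ResidueField ↥A) M) (E (IsLocalRing.ResidueField ↥A) (M * 4))
        ((gaussRedData A M hM).red y) : E (IsLocalRing.ResidueField ↥A) (M * 4)) :
        LaurentSeries (IsLocalRing.ResidueField ↥A)) = (((gaussRedData A M hM).red y :
        E (IsLocalRing.ResidueField ↥A) M) : LaurentSeries (IsLocalRing.ResidueField ↥A)) from
      MR.Eis.coe_towerAlgebraMap (IsLocalRing.ResidueField ↥A) (dvd_mul_right M 4) _]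
    rw [coe_gauss_red A M hM y hy]
    exact congrArg (gRes A) (MR.Eis.mk_gRing_congr A _ _ _ _ e1)

theorem lifts_gaussRedData' (M : ℕ) [NeZero M] (hM : ((M : ℕ) : IsLocalRing.ResidueField ↥A) ≠ 0)
    (m : ℕ) (h : Lifts (gaussRedData A M hM) m)
    (E' : IntermediateField Kbar (LaurentSeries Kbar)) (hE : E' = modularFunctionFieldFullC Kbar M) :
    Lifts (Conc.gaussRedData' A M hM E' hE) m := by
  subst hE
  exact h

include hq hA in
/-- **Lifting of Kummer classes for `FN M`**, any level prime to `q`. -/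
theorem lifts_RM (hq2 : q ≠ 2) (M : ℕ) [NeZero M]
    (hM : ((M : ℕ) : IsLocalRing.ResidueField ↥A) ≠ 0)
    (ℓ : ℕ) (hℓ : ℓ.Prime) (h5 : 5 ≤ ℓ) (hne : ℓ ≠ q) (e : ℕ) :
    Lifts (Conc.RM A M hM) (ℓ ^ e) :=
  lifts_gaussRedData' A M hM _ (lifts_gauss_level A q hq hA hq2 M hM ℓ hℓ h5 hne e) _ _

include hq hA in
/-- neat level, any `ℓ ≠ q` (also `q = 2`). -/
theorem lifts_RM_neat (M : ℕ) [NeZero M]
    (hM : ((M : ℕ) : IsLocalRing.ResidueField ↥A) ≠ 0) (hneat : 4 ∣ M ∨ 9 ∣ M)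
    (ℓ : ℕ) (hℓ : ℓ.Prime) (hne : ℓ ≠ q) (e : ℕ) :
    Lifts (Conc.RM A M hM) (ℓ ^ e) :=
  lifts_gaussRedData' A M hM _ (lifts_gauss_neat A q hq hA M hM hneat ℓ hℓ hne e) _ _

end Fermat.Agent.S43.RedIso
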