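import Fermat.Agent.S43.RedIso.Abs
import Fermat.Agent.MR.Eis.RedNorm

/-!
# S43 / RedIso / Descent : lifting of Kummer classes descends along a tower of degree prime to `m`

`F1 ⊆ F`, `Fb1 ⊆ Fb`, reductions `R1`, `R` compatible, residue degree = degree `d`, `gcd (m, d) = 1`.  If every Kummer function of
`Fb` lifts (up to `m`-th powers) to a Kummer function of `F`, the same holds for `Fb1`, `F1` (take norms).
-/

set_option autoImplicit false

namespace Fermat.Agent.S43.RedIso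

open AlgebraicCurve Fermat.Agent.GAL Fermat.Agent.GAL.RED Fermat.Agent.GAL.Hecke Fermat.Agent.Lib.RR

variable {K F1 F k Fb1 Fb : Type*} [Field K] [Field F1] [Field F] [Algebra K F1] [Algebra K F]
  [Field k] [Field Fb1] [Field Fb] [Algebra k Fb1] [Algebra k Fb]

/-- the lifting property of a reduction datum, exponent `m`. -/
def Lifts (R : RedData K F k Fb) (m : ℕ) : Prop :=
  ∀ v : Fb, v ≠ 0 → (∀ P : Place k Fb, (m : ℤ) ∣ P.ord v) →
    ∃ u : kummerUnits K F m, ∃ h : Fb, h ≠ 0 ∧ R.red ((u : Fˣ) : F) = v * h ^ m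

theorem lifts_descent [Algebra F1 F] [IsScalarTower K F1 F] [FiniteDimensional F1 F]
    [Algebra.IsSeparable F1 F] [Algebra Fb1 Fb] [IsScalarTower k Fb1 Fb] [Module.Finite Fb1 Fb]
    (R1 : RedData K F1 k Fb1) (R : RedData K F k Fb)
    (hmem : ∀ y : F1, y ∈ R1.O → algebraMap F1 F y ∈ R.O)
    (hred : ∀ y : F1, y ∈ R1.O → R.red (algebraMap F1 F y) = algebraMap Fb1 Fb (R1.red y))
    (hdeg : Module.finrank Fb1 Fb = Module.finrank F1 F) (m : ℕ)
    (hcop : Nat.Coprime m (Module.finrank Fb1 Fb)) (hL : Lifts R m) : Lifts R1 m := by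
  intro v hv0 hv
  have hv1 : algebraMap Fb1 Fb v ≠ 0 := (map_ne_zero _).mpr hv0
  obtain ⟨u1, h, hh0, hu1⟩ := hL (algebraMap Fb1 Fb v) hv1 (by
    intro Q
    rw [Q.ord_restrict]
    exact dvd_mul_of_dvd_right (hv _) _)
  have hu1ne : R.red ((u1 : Fˣ) : F) ≠ 0 := by
    rw [hu1]
    exact mul_ne_zero hv1 (pow_ne_zero _ hh0)
  have key := MR.Eis.red_norm_single R1 R hmem hred hdeg ((u1 : Fˣ) : F)
    (R.mem_of_red_ne_zero hu1ne)
  set d : ℕ := Module.finrank Fb1 Fb with hd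
  have hN : R1.red (Algebra.norm F1 ((u1 : Fˣ) : F)) = v ^ d * (Algebra.norm Fb1 h) ^ m := by
    rw [key.2, hu1, map_mul, map_pow, Algebra.norm_algebraMap]
  have hNh0 : Algebra.norm Fb1 h ≠ 0 := Algebra.norm_ne_zero_iff.mpr hh0
  have hNne : R1.red (Algebra.norm F1 ((u1 : Fˣ) : F)) ≠ 0 := by
    rw [hN]
    exact mul_ne_zero (pow_ne_zero _ hv0) (pow_ne_zero _ hNh0)
  -- the norm is a Kummer unit
  let w : kummerUnits K F1 m := ⟨Units.map (Algebra.norm F1 : F →* F1) (u1 : Fˣ),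
    norm_mem_kummerUnits u1.2⟩
  have hw : ((w : F1ˣ) : F1) = Algebra.norm F1 ((u1 : Fˣ) : F) := rfl
  -- Bezout
  have hbez : IsCoprime (d : ℤ) (m : ℤ) := (Nat.isCoprime_iff_coprime.mpr hcop).symm
  obtain ⟨a, b, hab⟩ := hbez
  refine ⟨w ^ a, v ^ (-b) * (Algebra.norm Fb1 h) ^ a, mul_ne_zero (zpow_ne_zero _ hv0)
    (zpow_ne_zero _ hNh0), ?_⟩
  have e1 : (((w ^ a : kummerUnits K F1 m) : F1ˣ) : F1) = (Algebra.norm F1 ((u1 : Fˣ) : F)) ^ a := by
    rw [Subgroup.coe_zpow, Units.val_zpow_eq_zpow_val, hw]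
  rw [e1, R1.red_zpow hNne, hN, mul_zpow, mul_pow]
  have e2 : (v ^ d) ^ a = v * (v ^ (-b)) ^ m := by
    rw [← zpow_natCast v d, ← zpow_mul, ← zpow_natCast (v ^ (-b)) m, ← zpow_mul,
      ← zpow_one_add₀ hv0]
    congr 1
    linarith
  have e3 : ((Algebra.norm Fb1 h) ^ m) ^ a = ((Algebra.norm Fb1 h) ^ a) ^ m := by
    rw [← zpow_natCast _ m, ← zpow_mul, ← zpow_natCast ((Algebra.norm Fb1 h) ^ a) m, ← zpow_mul,
      mul_comm]
  rw [e2, e3, mul_assoc]

end Fermat.Agent.S43.RedIso
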