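import Fermat.Agent.S43.RedIso.Conc

/-!
# S43 / RedIso / Hecke : the good reduction `RM` of `FN M` commutes with the multiplicative Hecke operators

`A` a place of `Kbar` over `q ∤ M`, `RM = Conc.RM A M hM`.  For a prime `l ∤ M q`:
`RM.red (heckeNorm Kbar M l u) = TBar k M l (RM.red u)` for `u ∈ RM.O`   (port of `MR.Eis.red_heckeNorm_TBar`).
-/

set_option autoImplicit false
set_option linter.style.haveILetI false
set_option linter.unusedSectionVars false

noncomputable section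

namespace Fermat.Agent.S43.RedIso

open AlgebraicCurve ModularCurve Fermat.Agent.S24 Fermat.Agent.GAL Fermat.Agent.GAL.Hecke
  Fermat.Agent.GAL.Igusa Fermat.Agent.GAL.RED Fermat.Agent.GAL.Gauss Fermat.Agent.DR
  Fermat.Agent.DR.Abs Fermat.Agent.MR.Eis

variable (A : ValuationSubring Kbar) (M : ℕ) [NeZero M]
  (hM : ((M : ℕ) : IsLocalRing.ResidueField ↥A) ≠ 0)
variable (l : ℕ) [NeZero l] (hl : l.Prime) (hlM : ¬ l ∣ M)
  (hMl : ((M * l : ℕ) : IsLocalRing.ResidueField ↥A) ≠ 0)

theorem RM_mem_alpha (y : FN M) (hy : y ∈ (Conc.RM A M hM).O) :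
    heckeAlphaBar Kbar M l y ∈ (Conc.RM A (M * l) hMl).O := by
  rw [Conc.mem_RM_O_iff] at hy ⊢
  rw [coe_heckeAlphaBar]
  exact hy

theorem RM_red_alpha (y : FN M) (hy : y ∈ (Conc.RM A M hM).O) :
    (Conc.RM A (M * l) hMl).red (heckeAlphaBar Kbar M l y) =
      (towerAlgebra (IsLocalRing.ResidueField ↥A) (dvd_mul_right M l)).algebraMap
        ((Conc.RM A M hM).red y) := by
  apply Subtype.ext
  have hy0 : (y : LaurentSeries Kbar) ∈ gRing A := (Conc.mem_RM_O_iff A M hM y).mp hy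
  have hy' : ((heckeAlphaBar Kbar M l y : FN (M * l)) : LaurentSeries Kbar) ∈ gRing A := by
    rw [coe_heckeAlphaBar]; exact hy0
  rw [Conc.coe_RM_red A (M * l) hMl _ hy', coe_towerAlgebraMap, Conc.coe_RM_red A M hM y hy0]
  exact congrArg (gRes A) (mk_gRing_congr A _ _ _ _ (coe_heckeAlphaBar M l y))

theorem RM_mem_beta (u : FN M) (hu : u ∈ (Conc.RM A M hM).O) :
    ((heckeBetaBar Kbar M l u : FN (M * l)) : LaurentSeries Kbar) ∈ gRing A := by
  have hu' : (u : LaurentSeries Kbar) ∈ gRing A := (Conc.mem_RM_O_iff A M hM u).mp hu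
  rw [coe_heckeBetaBar]
  exact Conc.qExpand_mem_gRing A l hu'

theorem RM_red_beta (u : FN M) (hu : u ∈ (Conc.RM A M hM).O) :
    (Conc.RM A (M * l) hMl).red (heckeBetaBar Kbar M l u) =
      betaBar (IsLocalRing.ResidueField ↥A) M l ((Conc.RM A M hM).red u) := by
  have hu' : (u : LaurentSeries Kbar) ∈ gRing A := (Conc.mem_RM_O_iff A M hM u).mp hu
  apply Subtype.ext
  rw [Conc.coe_RM_red A (M * l) hMl _ (RM_mem_beta A M hM l u hu), coe_betaBar,
    Conc.coe_RM_red A M hM u hu', ← Conc.gRes_qExpand A l hu']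
  exact congrArg (gRes A) (mk_gRing_congr A _ _ _ _ (coe_heckeBetaBar M l u))

include hl hlM hMl in
theorem finrank_tower_RM :
    @Module.finrank (E (IsLocalRing.ResidueField ↥A) M) (E (IsLocalRing.ResidueField ↥A) (M * l)) _ _
      (towerAlgebra (IsLocalRing.ResidueField ↥A) (dvd_mul_right M l)).toModule = l + 1 := by
  letI := towerAlgebra (IsLocalRing.ResidueField ↥A) (dvd_mul_right M l)
  obtain ⟨-, -, -, -, h5⟩ := tower_spec (IsLocalRing.ResidueField ↥A) (dvd_mul_right M l) hMl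
  have h2 : dedekindPsi (M * l) = (l + 1) * dedekindPsi M := by
    rw [mul_comm M l, Fermat.Agent.Lib.Gamma0Count.dedekindPsi_prime_mul_of_not_dvd hl (NeZero.ne M) hlM]
  rw [h2] at h5
  exact Nat.eq_of_mul_eq_mul_right (DegreeAlpha.dedekindPsi_pos M) h5

include hl hlM hMl in
/-- **Good reduction commutes with `T_l`.** -/
theorem RM_red_heckeNorm (u : FN M) (hu : u ∈ (Conc.RM A M hM).O) :
    heckeNorm Kbar M l u ∈ (Conc.RM A M hM).O ∧
      (Conc.RM A M hM).red (heckeNorm Kbar M l u) =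
        TBar (IsLocalRing.ResidueField ↥A) M l ((Conc.RM A M hM).red u) := by
  letI := algebraAlong (heckeAlphaBar Kbar M l)
  haveI := isScalarTower_along (heckeAlphaBar Kbar M l)
  haveI : FiniteDimensional (FN M) (FN (M * l)) := DegreeAlpha.finiteDimensional_alpha M l hl hlM
  letI := towerAlgebra (IsLocalRing.ResidueField ↥A) (dvd_mul_right M l)
  obtain ⟨-, -, h3, -, -⟩ := tower_spec (IsLocalRing.ResidueField ↥A) (dvd_mul_right M l) hMl
  have key := red_norm_single (Conc.RM A M hM) (Conc.RM A (M * l) hMl)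
    (RM_mem_alpha A M hM l hMl)
    (RM_red_alpha A M hM l hMl)
    ((finrank_tower_RM A M l hl hlM hMl).trans (DegreeAlpha.finrank_alpha M l hl hlM).symm)
    (heckeBetaBar Kbar M l u)
    ((Conc.mem_RM_O_iff A (M * l) hMl _).mpr (RM_mem_beta A M hM l u hu))
  refine ⟨key.1, ?_⟩
  rw [TBar_apply, ← RM_red_beta A M hM l hMl u hu]
  exact key.2

end Fermat.Agent.S43.RedIso
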